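import Mathlib
import Fermat.Prelude.Def_EllipticCurve_FrobeniusTrace
import Fermat.Prelude.Def_ExtCitation_AdmissibleExtension
import Fermat.Agent.QbarInst

/-!
# The mod `n` cyclotomic character of `G_ℚ`

`cyc n : (AlgebraicClosure ℚ ≃ₐ[ℚ] AlgebraicClosure ℚ) →* (ZMod n)ˣ`, its action on roots of unity,
values on inertia and Frobenius elements away from `n`, and the fact that it factors through a
finite level.
-/

set_option autoImplicit false

noncomputable section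

namespace Fermat.Agent.Cyclotomic

local notation "Qbar" => AlgebraicClosure ℚ
local notation "Γℚ" => (AlgebraicClosure ℚ ≃ₐ[ℚ] AlgebraicClosure ℚ)

theorem card_rootsOfUnity_eq (n : ℕ) [NeZero n] : Nat.card (rootsOfUnity n Qbar) = n :=
  IsAlgClosed.card_rootsOfUnity_eq Qbar n

/-- The mod `n` cyclotomic character. -/
def cyc (n : ℕ) [NeZero n] : Γℚ →* (ZMod n)ˣ :=
  MonoidHom.mk'
    (fun σ => modularCyclotomicCharacter Qbar (card_rootsOfUnity_eq n) (σ : Qbar ≃+* Qbar))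
    (fun a b => by rw [← map_mul]; congr 1)

variable (n : ℕ) [NeZero n]

theorem cyc_apply (σ : Γℚ) : cyc n σ =
    modularCyclotomicCharacter Qbar (card_rootsOfUnity_eq n) (σ : Qbar ≃+* Qbar) := rfl

theorem cyc_spec (σ : Γℚ) {ζ : Qbar} (hζ : ζ ^ n = 1) : σ ζ = ζ ^ ((cyc n σ : ZMod n)).val := by
  have hu : IsUnit ζ := IsUnit.of_pow_eq_one hζ (NeZero.ne n)
  obtain ⟨u, rfl⟩ := hu
  have hmem : u ∈ rootsOfUnity n Qbar := by
    rw [mem_rootsOfUnity]
    exact Units.ext (by simpa using hζ)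
  exact modularCyclotomicCharacter.spec Qbar (card_rootsOfUnity_eq n) (σ : Qbar ≃+* Qbar) hmem

theorem cyc_unique (σ : Γℚ) {c : ZMod n} (hc : ∀ ζ : Qbar, ζ ^ n = 1 → σ ζ = ζ ^ c.val) :
    (cyc n σ : ZMod n) = c := by
  symm
  refine modularCyclotomicCharacter.unique Qbar (card_rootsOfUnity_eq n) (σ : Qbar ≃+* Qbar) ?_
  intro t ht
  refine hc t ?_
  rw [mem_rootsOfUnity] at ht
  simpa using congrArg Units.val ht

omit [NeZero n] in
theorem pow_mod_eq {ζ : Qbar} (hζ : ζ ^ n = 1) (m : ℕ) : ζ ^ (m % n) = ζ ^ m := by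
  conv_rhs => rw [← Nat.div_add_mod m n, pow_add, pow_mul, hζ, one_pow, one_mul]

omit [NeZero n] in
theorem pow_val_natCast {ζ : Qbar} (hζ : ζ ^ n = 1) (m : ℕ) : ζ ^ ((m : ZMod n)).val = ζ ^ m := by
  rw [ZMod.val_natCast]
  exact pow_mod_eq n hζ m

theorem cyc_unique_nat (σ : Γℚ) {m : ℕ} (hc : ∀ ζ : Qbar, ζ ^ n = 1 → σ ζ = ζ ^ m) :
    (cyc n σ : ZMod n) = m :=
  cyc_unique n σ fun ζ hζ => by rw [pow_val_natCast n hζ]; exact hc ζ hζ

theorem exists_primitiveRoot : ∃ ζ : Qbar, IsPrimitiveRoot ζ n :=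
  HasEnoughRootsOfUnity.exists_primitiveRoot Qbar n

theorem cyc_eq_one_of_fixes (σ : Γℚ) {ζ : Qbar} (hζ : IsPrimitiveRoot ζ n) (h : σ ζ = ζ) :
    cyc n σ = 1 := by
  refine Units.ext ?_
  have := cyc_unique_nat n σ (m := 1) (fun z hz => by
    obtain ⟨i, -, rfl⟩ := hζ.eq_pow_of_pow_eq_one hz
    rw [map_pow, h, pow_one])
  simpa using this

/-- The cyclotomic character factors through a finite level. -/
theorem cyc_finite_level : ∃ L : IntermediateField ℚ Qbar, FiniteDimensional ℚ L ∧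
    ∀ σ : Γℚ, (∀ x ∈ L, σ x = x) → cyc n σ = 1 := by
  obtain ⟨ζ, hζ⟩ := exists_primitiveRoot n
  refine ⟨IntermediateField.adjoin ℚ {ζ}, ?_, fun σ hσ => ?_⟩
  · exact IntermediateField.adjoin.finiteDimensional (Algebra.IsIntegral.isIntegral ζ)
  · exact cyc_eq_one_of_fixes n σ hζ (hσ ζ (IntermediateField.mem_adjoin_simple_self ℚ ζ))

section Places

variable {n}

omit [NeZero n] in
theorem mem_of_pow_eq_one {L : Type*} [Field L] (A : ValuationSubring L)
      {ζ : L} {n : ℕ} (hζ : ζ ^ n = 1) (hn : n ≠ 0) : ζ ∈ A := by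
  rcases A.mem_or_inv_mem ζ with h | h
  · exact h
  · have h0 : ζ ≠ 0 := by
      rintro rfl
      rw [zero_pow hn] at hζ
      exact zero_ne_one hζ
    have : ζ = ζ⁻¹ ^ (n - 1) := by
      have h1 : ζ ^ (n - 1) * ζ = 1 := by rw [← pow_succ, Nat.sub_add_cancel (Nat.pos_of_ne_zero hn), hζ]
      rw [inv_pow]
      exact eq_inv_of_mul_eq_one_right h1
    rw [this]
    exact pow_mem h _

/-- `n`-th roots of unity inject into the residue field at a place not dividing `n`. -/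
theorem eq_of_residue_eq (A : ValuationSubring Qbar) (hn : (n : Qbar) ∉ A.nonunits) {ζ ξ : Qbar}
    (hζ : ζ ^ n = 1) (hξ : ξ ^ n = 1) (h : ζ - ξ ∈ A.nonunits) : ζ = ξ := by
  -- reduce to `η = ζ / ξ`, with `η - 1` a nonunit
  by_contra hne
  have hξ0 : ξ ≠ 0 := by
    rintro rfl
    rw [zero_pow (NeZero.ne n)] at hξ
    exact zero_ne_one hξ
  set η := ζ * ξ⁻¹ with hη
  have hηn : η ^ n = 1 := by rw [hη, mul_pow, hζ, inv_pow, hξ]; simp
  have hη1 : η ≠ 1 := by
    intro h1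
    apply hne
    rw [hη] at h1
    field_simp at h1
    exact h1
  -- sum_{i<n} η^i = 0
  have hsum : ∑ i ∈ Finset.range n, η ^ i = 0 := by
    have h1 := geom_sum_mul η n
    rw [hηn, sub_self] at h1
    exact (mul_eq_zero.mp h1).resolve_right (sub_ne_zero.mpr hη1)
  have hξA : ξ⁻¹ ∈ A := mem_of_pow_eq_one A (ζ := ξ⁻¹) (n := n) (by rw [inv_pow, hξ, inv_one])
    (NeZero.ne n)
  have hηA : η ∈ A := mem_of_pow_eq_one A hηn (NeZero.ne n)
  let η' : A := ⟨η, hηA⟩
  have hres : IsLocalRing.residue A η' = 1 := by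
    rw [← sub_eq_zero, ← map_one (IsLocalRing.residue A), ← map_sub, IsLocalRing.residue_eq_zero_iff]
    have h2 : η - 1 = (ζ - ξ) * ξ⁻¹ := by
      rw [hη]; field_simp
    have h3 : (ζ - ξ) * ξ⁻¹ ∈ A.nonunits := by
      rw [ValuationSubring.mem_nonunits_iff] at h ⊢
      rw [map_mul]
      calc A.valuation (ζ - ξ) * A.valuation ξ⁻¹ ≤ A.valuation (ζ - ξ) * 1 := by
            gcongr
            exact (A.valuation_le_one_iff _).mpr hξA
        _ < 1 := by rwa [mul_one]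
    rw [← h2] at h3
    have h4 : ((η' - 1 : A) : Qbar) ∈ A.nonunits := by simpa [η'] using h3
    obtain ⟨hA, hmem⟩ := ValuationSubring.mem_nonunits_iff_exists_mem_maximalIdeal.mp h4
    convert hmem
  have hsum' : ∑ i ∈ Finset.range n, η' ^ i = 0 := by
    apply Subtype.ext
    simpa [η'] using hsum
  have := congrArg (IsLocalRing.residue A) hsum'
  rw [map_sum, map_zero] at this
  simp only [map_pow, hres, one_pow, Finset.sum_const, Finset.card_range, nsmul_eq_mul,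
    mul_one] at this
  apply hn
  have h5 : IsLocalRing.residue A (n : A) = 0 := by rw [map_natCast]; exact this
  rw [IsLocalRing.residue_eq_zero_iff] at h5
  exact ValuationSubring.mem_nonunits_iff_exists_mem_maximalIdeal.mpr
    ⟨natCast_mem A n, h5⟩

/-- Elements of inertia act trivially modulo the maximal ideal. -/
theorem sub_mem_nonunits_of_mem_inertia (A : ValuationSubring Qbar) {σ : Γℚ}
    (hσ : σ ∈ A.inertiaSubgroupIn ℚ) {x : Qbar} (hx : x ∈ A) : σ x - x ∈ A.nonunits := by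
  obtain ⟨τ, hτ, rfl⟩ := hσ
  have h1 : τ • IsLocalRing.residue A ⟨x, hx⟩ = IsLocalRing.residue A ⟨x, hx⟩ :=
    congrArg (fun e : RingAut (IsLocalRing.ResidueField A) => e (IsLocalRing.residue A ⟨x, hx⟩)) hτ
  rw [← IsLocalRing.ResidueField.residue_smul, ← sub_eq_zero, ← map_sub,
    IsLocalRing.residue_eq_zero_iff] at h1
  exact ValuationSubring.mem_nonunits_iff_exists_mem_maximalIdeal.mpr ⟨_, h1⟩

/-- Frobenius elements act as `x ↦ x ^ q` modulo the maximal ideal. -/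
theorem sub_pow_mem_nonunits_of_isFrobeniusAt (A : ValuationSubring Qbar) {σ : Γℚ} {q : ℕ}
    (hσ : A.IsFrobeniusAt σ q) {x : Qbar} (hx : x ∈ A) : σ x - x ^ q ∈ A.nonunits := by
  obtain ⟨hσ1, hσ2⟩ := hσ
  have h1 := hσ2 (IsLocalRing.residue A ⟨x, hx⟩)
  rw [← IsLocalRing.ResidueField.residue_smul, ← map_pow, ← sub_eq_zero, ← map_sub,
    IsLocalRing.residue_eq_zero_iff] at h1
  exact ValuationSubring.mem_nonunits_iff_exists_mem_maximalIdeal.mpr ⟨_, h1⟩

/-- A natural number prime to `ℓ` is a unit at places over `ℓ`. -/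
theorem natCast_notMem_nonunits {A : ValuationSubring Qbar} {ℓ : ℕ} (hℓ : ℓ.Prime)
    (hA : A.LiesOverPrime ℓ) {m : ℕ} (hm : ¬ ℓ ∣ m) : (m : Qbar) ∉ A.nonunits := by
  intro h
  have hcop : IsCoprime (ℓ : ℤ) (m : ℤ) :=
    Nat.isCoprime_iff_coprime.mpr ((Nat.Prime.coprime_iff_not_dvd hℓ).mpr hm)
  obtain ⟨a, b, hab⟩ := hcop
  obtain ⟨h1, h1'⟩ := ValuationSubring.mem_nonunits_iff_exists_mem_maximalIdeal.mp hA
  obtain ⟨h2, h2'⟩ := ValuationSubring.mem_nonunits_iff_exists_mem_maximalIdeal.mp h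
  have h3 : (a : A) * ⟨(ℓ : Qbar), h1⟩ + (b : A) * ⟨(m : Qbar), h2⟩ ∈
      IsLocalRing.maximalIdeal A :=
    Ideal.add_mem _ (Ideal.mul_mem_left _ _ h1') (Ideal.mul_mem_left _ _ h2')
  have h4 : (a : A) * ⟨(ℓ : Qbar), h1⟩ + (b : A) * ⟨(m : Qbar), h2⟩ = 1 := by
    apply Subtype.ext
    have := congrArg (Int.cast : ℤ → Qbar) hab
    push_cast at this ⊢
    exact this
  rw [h4] at h3
  exact (Ideal.ne_top_iff_one _).mp (IsLocalRing.maximalIdeal.isMaximal A).ne_top h3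

/-- The cyclotomic character is trivial on inertia away from `n`. -/
theorem cyc_inertia {ℓ : ℕ} (hℓ : ℓ.Prime) (hℓn : ¬ ℓ ∣ n) (A : ValuationSubring Qbar)
    (hA : A.LiesOverPrime ℓ) {σ : Γℚ} (hσ : σ ∈ A.inertiaSubgroupIn ℚ) : cyc n σ = 1 := by
  obtain ⟨ζ, hζ⟩ := exists_primitiveRoot n
  refine cyc_eq_one_of_fixes n σ hζ ?_
  exact eq_of_residue_eq A (natCast_notMem_nonunits hℓ hA hℓn)
    (by rw [← map_pow, hζ.pow_eq_one, map_one]) hζ.pow_eq_one
    (sub_mem_nonunits_of_mem_inertia A hσ (mem_of_pow_eq_one A hζ.pow_eq_one (NeZero.ne n)))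

/-- The cyclotomic character at a Frobenius element away from `n`. -/
theorem cyc_frobenius {ℓ : ℕ} (hℓ : ℓ.Prime) (hℓn : ¬ ℓ ∣ n) (A : ValuationSubring Qbar)
    (hA : A.LiesOverPrime ℓ) {σ : Γℚ} (hσ : A.IsFrobeniusAt σ ℓ) :
    (cyc n σ : ZMod n) = ℓ := by
  refine cyc_unique_nat n σ fun ζ hζ => ?_
  exact eq_of_residue_eq A (natCast_notMem_nonunits hℓ hA hℓn)
    (by rw [← map_pow, hζ, map_one]) (by rw [← pow_mul, mul_comm, pow_mul, hζ, one_pow])
    (sub_pow_mem_nonunits_of_isFrobeniusAt A hσ (mem_of_pow_eq_one A hζ (NeZero.ne n)))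

end Places

end Fermat.Agent.Cyclotomic
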