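import Fermat.Agent.HeckeDualityA
import Fermat.Agent.S22

/-!
# The eigencharacter of a normalised eigenform

For a normalised eigenform `f ∈ S₂(Γ₀(N))` (coefficient relations only) we construct the ring
homomorphism `χ_f : 𝕋 → ℂ`, and show that the coefficients are algebraic integers.
-/

set_option autoImplicit false

noncomputable section

open CongruenceSubgroup ModularFormClass Fermat.Agent.HeckeDuality

namespace Fermat.Agent.EigenCharacter

variable {N : ℕ} [NeZero N] {f : CuspForm (Gamma0 N) 2}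

/-- The Hecke recursion for the coefficients of a normalised eigenform. -/
theorem qCoeff_mul_prime (hf : f.IsNormalizedEigenform) {ℓ : ℕ} (hℓ : ℓ.Prime) (n : ℕ) :
    qCoeff ⇑f (n * ℓ) + (if ℓ ∣ n ∧ ¬ ℓ ∣ N then (ℓ : ℂ) * qCoeff ⇑f (n / ℓ) else 0) =
      qCoeff ⇑f ℓ * qCoeff ⇑f n := by
  rcases eq_or_ne n 0 with rfl | hn
  · simp [qc_apply_zero]
  obtain ⟨r, m, hm, rfl⟩ := Nat.exists_eq_pow_mul_and_not_dvd hn ℓ hℓ.ne_one
  have hcop : ∀ s, (ℓ ^ s).Coprime m := fun s =>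
    Nat.Coprime.pow_left s ((Nat.Prime.coprime_iff_not_dvd hℓ).mpr hm)
  have e1 : ℓ ^ r * m * ℓ = ℓ ^ (r + 1) * m := by ring
  rw [e1, hf.qCoeff_mul_of_coprime _ _ (hcop (r + 1)), hf.qCoeff_mul_of_coprime _ _ (hcop r)]
  cases r with
  | zero =>
    rw [pow_zero, one_mul, zero_add, pow_one, hf.qCoeff_one, one_mul, if_neg (fun h => hm h.1),
      add_zero]
  | succ r =>
    have e2 : ℓ ^ (r + 1) * m / ℓ = ℓ ^ r * m := by
      rw [pow_succ', mul_assoc, Nat.mul_div_cancel_left _ hℓ.pos]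
    by_cases hN : ℓ ∣ N
    · rw [if_neg (fun h => h.2 hN), add_zero, hf.qCoeff_prime_pow_of_dvd ℓ r hℓ hN]
      ring
    · rw [if_pos ⟨Dvd.dvd.mul_right (dvd_pow_self ℓ (Nat.succ_ne_zero r)) m, hN⟩, e2,
        hf.qCoeff_mul_of_coprime _ _ (hcop r), hf.qCoeff_prime_pow_of_not_dvd ℓ r hℓ hN]
      ring

theorem gen_apply (hf : f.IsNormalizedEigenform) {ℓ : ℕ} (hℓ : ℓ.Prime) :
    ((gen N 2 hℓ : Module.End ℂ (CuspForm (Gamma0 N) 2)) f) = qCoeff ⇑f ℓ • f := by
  refine ext_of_qc fun n => ?_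
  rw [qc_gen, qc_smul, ← qCoeff_mul_prime hf hℓ n]
  congr 2
  norm_num

theorem exists_eigenvalue (hf : f.IsNormalizedEigenform) (t : CuspForm.heckeAlgebra N 2 ∅) :
    ∃ c : ℂ, (t : Module.End ℂ (CuspForm (Gamma0 N) 2)) f = c • f := by
  obtain ⟨t, ht⟩ := t
  show ∃ c : ℂ, t f = c • f
  induction ht using Algebra.adjoin_induction with
  | mem t ht =>
    rcases ht with ⟨ℓ, hℓ, hℓN, -, rfl⟩ | ⟨q, hqN, hq, -, rfl⟩
    · have := gen_apply hf hℓ
      rw [gen, dif_neg hℓN, CuspForm.heckeAlgebra.coe_T] at this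
      exact ⟨_, this⟩
    · have := gen_apply hf hq
      rw [gen, dif_pos hqN, CuspForm.heckeAlgebra.coe_U] at this
      exact ⟨_, this⟩
  | algebraMap r =>
    refine ⟨(r : ℂ), ?_⟩
    rw [Module.algebraMap_end_apply, Int.cast_smul_eq_zsmul]
  | add s t _ _ hs ht =>
    obtain ⟨a, ha⟩ := hs
    obtain ⟨b, hb⟩ := ht
    exact ⟨a + b, by rw [LinearMap.add_apply, ha, hb, add_smul]⟩
  | mul s t _ _ hs ht =>
    obtain ⟨a, ha⟩ := hs
    obtain ⟨b, hb⟩ := ht
    exact ⟨a * b, by rw [Module.End.mul_apply, hb, map_smul, ha, smul_smul, mul_comm]⟩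

/-- The eigencharacter `χ_f : 𝕋 → ℂ`. -/
def eigenChar (hf : f.IsNormalizedEigenform) : CuspForm.heckeAlgebra N 2 ∅ →+* ℂ where
  toFun t := qCoeff ⇑((t : Module.End ℂ (CuspForm (Gamma0 N) 2)) f) 1
  map_one' := hf.qCoeff_one
  map_zero' := by
    show qCoeff ⇑((0 : Module.End ℂ (CuspForm (Gamma0 N) 2)) f) 1 = 0
    rw [LinearMap.zero_apply, qc_zero]
  map_add' s t := by
    show qCoeff ⇑(((s : Module.End ℂ (CuspForm (Gamma0 N) 2)) + t) f) 1 = _
    rw [LinearMap.add_apply, qc_add]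
  map_mul' s t := by
    show qCoeff ⇑((s : Module.End ℂ (CuspForm (Gamma0 N) 2))
      ((t : Module.End ℂ (CuspForm (Gamma0 N) 2)) f)) 1 = _
    obtain ⟨a, ha⟩ := exists_eigenvalue hf s
    obtain ⟨b, hb⟩ := exists_eigenvalue hf t
    rw [hb, map_smul, ha, qc_smul, qc_smul, qc_smul, hf.qCoeff_one]
    ring

theorem apply_eq_smul (hf : f.IsNormalizedEigenform) (t : CuspForm.heckeAlgebra N 2 ∅) :
    (t : Module.End ℂ (CuspForm (Gamma0 N) 2)) f = eigenChar hf t • f := by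
  obtain ⟨a, ha⟩ := exists_eigenvalue hf t
  have : eigenChar hf t = a := by
    show qCoeff ⇑((t : Module.End ℂ (CuspForm (Gamma0 N) 2)) f) 1 = a
    rw [ha, qc_smul, hf.qCoeff_one, mul_one]
  rw [this, ha]

theorem eigenChar_gen (hf : f.IsNormalizedEigenform) {ℓ : ℕ} (hℓ : ℓ.Prime) :
    eigenChar hf (gen N 2 hℓ) = qCoeff ⇑f ℓ := by
  show qCoeff ⇑((gen N 2 hℓ : Module.End ℂ (CuspForm (Gamma0 N) 2)) f) 1 = _
  rw [gen_apply hf hℓ, qc_smul, hf.qCoeff_one, mul_one]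

instance finite_heckeAlgebra (N : ℕ) [NeZero N] (k : ℤ) (S : Set ℕ) :
    Module.Finite ℤ (CuspForm.heckeAlgebra N k S) := S22.result N k S

theorem isIntegral_eigenChar (hf : f.IsNormalizedEigenform) (t : CuspForm.heckeAlgebra N 2 ∅) :
    IsIntegral ℤ (eigenChar hf t) :=
  (Algebra.IsIntegral.isIntegral (R := ℤ) t).map (eigenChar hf).toIntAlgHom

/-- The prime coefficients of a normalised eigenform are algebraic integers. -/
theorem isIntegral_qCoeff (hf : f.IsNormalizedEigenform) {ℓ : ℕ} (hℓ : ℓ.Prime) :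
    IsIntegral ℤ (qCoeff ⇑f ℓ) := by
  rw [← eigenChar_gen hf hℓ]
  exact isIntegral_eigenChar hf _

/-- All coefficients of a normalised eigenform are algebraic integers. -/
theorem isIntegral_qCoeff' (hf : f.IsNormalizedEigenform) (n : ℕ) :
    IsIntegral ℤ (qCoeff ⇑f n) := by
  rcases eq_or_ne n 0 with rfl | hn
  · rw [qc_apply_zero]; exact isIntegral_zero
  · obtain ⟨t, ht⟩ := exists_heckeOp (N := N) (k := 2) one_le_two n hn
    rw [← ht f]
    exact isIntegral_eigenChar hf t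

end Fermat.Agent.EigenCharacter
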