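/-
Change of Weierstrass coordinates on points, Galois equivariance, and independence of the
Frobenius trace from the integral model.
-/
import Mathlib
import Fermat.Prelude.Def_FLTPrelim_GaloisRep
import Fermat.Prelude.Def_FLTPrelim_Modularity
import Fermat.Prelude.Def_FLTPrelim_ModularRep
import Fermat.Prelude.Def_FLTPrelim_Ramification

set_option autoImplicit false

namespace Fermat.Agent.VarChange

open WeierstrassCurve WeierstrassCurve.Affine

section Ring

variable {R : Type*} [CommRing R]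

/-- the `x`-coordinate on `W` of the point of `C • W` with `x`-coordinate `x`. -/
def vcX (C : VariableChange R) (x : R) : R := (C.u : R) ^ 2 * x + C.r

/-- the `y`-coordinate on `W` of the point of `C • W` with coordinates `(x, y)`. -/
def vcY (C : VariableChange R) (x y : R) : R :=
  (C.u : R) ^ 3 * y + (C.u : R) ^ 2 * C.s * x + C.t

lemma u_mul_inv (C : VariableChange R) : (C.u : R) * ((C.u⁻¹ : Rˣ) : R) = 1 := by simp

lemma equation_vc_key (W : WeierstrassCurve R) (C : VariableChange R) (x y : R) :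
    (vcY C x y) ^ 2 + W.a₁ * (vcX C x) * (vcY C x y) + W.a₃ * (vcY C x y) -
      ((vcX C x) ^ 3 + W.a₂ * (vcX C x) ^ 2 + W.a₄ * (vcX C x) + W.a₆) =
      (C.u : R) ^ 6 * (y ^ 2 + (C • W).a₁ * x * y + (C • W).a₃ * y -
        (x ^ 3 + (C • W).a₂ * x ^ 2 + (C • W).a₄ * x + (C • W).a₆)) := by
  have hu : (C.u : R) * ((C.u⁻¹ : Rˣ) : R) = 1 := u_mul_inv C
  simp only [variableChange_def, vcX, vcY]
  generalize ((C.u⁻¹ : Rˣ) : R) = v at hu ⊢
  generalize (C.u : R) = u at hu ⊢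
  have h1 : u ^ 6 * v = u ^ 5 := by linear_combination u ^ 5 * hu
  have h2 : u ^ 6 * v ^ 2 = u ^ 4 := by
    linear_combination u ^ 4 * (u * v + 1) * hu
  have h3 : u ^ 6 * v ^ 3 = u ^ 3 := by
    linear_combination u ^ 3 * (u ^ 2 * v ^ 2 + u * v + 1) * hu
  have h4 : u ^ 6 * v ^ 4 = u ^ 2 := by
    linear_combination u ^ 2 * (u ^ 3 * v ^ 3 + u ^ 2 * v ^ 2 + u * v + 1) * hu
  have h6 : u ^ 6 * v ^ 6 = 1 := by
    linear_combination
      (u ^ 5 * v ^ 5 + u ^ 4 * v ^ 4 + u ^ 3 * v ^ 3 + u ^ 2 * v ^ 2 + u * v + 1) * hu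
  linear_combination (-(W.a₁ + 2 * C.s) * x * y) * h1
    - ((W.a₃ + C.r * W.a₁ + 2 * C.t) * y) * h3
    + ((W.a₂ - C.s * W.a₁ + 3 * C.r - C.s ^ 2) * x ^ 2) * h2
    + ((W.a₄ - C.s * W.a₃ + 2 * C.r * W.a₂ - (C.t + C.r * C.s) * W.a₁ + 3 * C.r ^ 2
        - 2 * C.s * C.t) * x) * h4
    + (W.a₆ + C.r * W.a₄ + C.r ^ 2 * W.a₂ + C.r ^ 3 - C.t * W.a₃ - C.t ^ 2
        - C.r * C.t * W.a₁) * h6

lemma equation_vc_iff (W : WeierstrassCurve R) (C : VariableChange R) (x y : R) :
    (C • W).toAffine.Equation x y ↔ W.toAffine.Equation (vcX C x) (vcY C x y) := by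
  rw [Affine.equation_iff', Affine.equation_iff']
  change _ ↔ (vcY C x y) ^ 2 + W.a₁ * (vcX C x) * (vcY C x y) + W.a₃ * (vcY C x y) -
      ((vcX C x) ^ 3 + W.a₂ * (vcX C x) ^ 2 + W.a₄ * (vcX C x) + W.a₆) = 0
  rw [equation_vc_key]
  exact ((C.u ^ 6).isUnit.mul_right_eq_zero (b := _) ).symm.trans (by push_cast; rfl)

lemma polyY_vc (W : WeierstrassCurve R) (C : VariableChange R) (x y : R) :
    2 * vcY C x y + W.a₁ * vcX C x + W.a₃ =
      (C.u : R) ^ 3 * (2 * y + (C • W).a₁ * x + (C • W).a₃) := by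
  have hu : (C.u : R) * ((C.u⁻¹ : Rˣ) : R) = 1 := u_mul_inv C
  simp only [variableChange_def, vcX, vcY]
  generalize ((C.u⁻¹ : Rˣ) : R) = v at hu ⊢
  generalize (C.u : R) = u at hu ⊢
  have h1 : u ^ 3 * v = u ^ 2 := by linear_combination u ^ 2 * hu
  have h3 : u ^ 3 * v ^ 3 = 1 := by
    linear_combination (u ^ 2 * v ^ 2 + u * v + 1) * hu
  linear_combination (-(W.a₁ + 2 * C.s) * x) * h1 - (W.a₃ + C.r * W.a₁ + 2 * C.t) * h3

lemma polyX_vc (W : WeierstrassCurve R) (C : VariableChange R) (x y : R) :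
    W.a₁ * vcY C x y - (3 * vcX C x ^ 2 + 2 * W.a₂ * vcX C x + W.a₄) =
      (C.u : R) ^ 4 * ((C • W).a₁ * y - (3 * x ^ 2 + 2 * (C • W).a₂ * x + (C • W).a₄)) -
      (C.u : R) ^ 3 * C.s * (2 * y + (C • W).a₁ * x + (C • W).a₃) := by
  have hu : (C.u : R) * ((C.u⁻¹ : Rˣ) : R) = 1 := u_mul_inv C
  simp only [variableChange_def, vcX, vcY]
  generalize ((C.u⁻¹ : Rˣ) : R) = v at hu ⊢
  generalize (C.u : R) = u at hu ⊢
  have h1 : u ^ 4 * v = u ^ 3 := by linear_combination u ^ 3 * hu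
  have h2 : u ^ 4 * v ^ 2 = u ^ 2 := by linear_combination u ^ 2 * (u * v + 1) * hu
  have h4 : u ^ 4 * v ^ 4 = 1 := by
    linear_combination (u ^ 3 * v ^ 3 + u ^ 2 * v ^ 2 + u * v + 1) * hu
  have h1' : u ^ 3 * v = u ^ 2 := by linear_combination u ^ 2 * hu
  have h3' : u ^ 3 * v ^ 3 = 1 := by
    linear_combination (u ^ 2 * v ^ 2 + u * v + 1) * hu
  linear_combination (-(W.a₁ + 2 * C.s) * y) * h1
    + (2 * (W.a₂ - C.s * W.a₁ + 3 * C.r - C.s ^ 2) * x) * h2
    + (W.a₄ - C.s * W.a₃ + 2 * C.r * W.a₂ - (C.t + C.r * C.s) * W.a₁ + 3 * C.r ^ 2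
        - 2 * C.s * C.t) * h4
    + C.s * ((W.a₁ + 2 * C.s) * x) * h1' + C.s * (W.a₃ + C.r * W.a₁ + 2 * C.t) * h3'

lemma nonsingular_vc_iff (W : WeierstrassCurve R) (C : VariableChange R) (x y : R) :
    (C • W).toAffine.Nonsingular x y ↔ W.toAffine.Nonsingular (vcX C x) (vcY C x y) := by
  rw [Affine.nonsingular_iff', Affine.nonsingular_iff', equation_vc_iff]
  refine and_congr_right fun _ => ?_
  rw [← not_iff_not, not_or, not_or, not_not, not_not, not_not, not_not]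
  change _ ↔ W.a₁ * vcY C x y - (3 * vcX C x ^ 2 + 2 * W.a₂ * vcX C x + W.a₄) = 0 ∧
    2 * vcY C x y + W.a₁ * vcX C x + W.a₃ = 0
  rw [polyX_vc, polyY_vc]
  have e3 : ∀ z : R, (C.u : R) ^ 3 * z = 0 ↔ z = 0 := fun z => by
    have := (C.u ^ 3).isUnit.mul_right_eq_zero (b := z)
    push_cast at this
    exact this
  have e4 : ∀ z : R, (C.u : R) ^ 4 * z = 0 ↔ z = 0 := fun z => by
    have := (C.u ^ 4).isUnit.mul_right_eq_zero (b := z)
    push_cast at this
    exact this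
  constructor
  · rintro ⟨h1, h2⟩
    change (C • W).a₁ * y - (3 * x ^ 2 + 2 * (C • W).a₂ * x + (C • W).a₄) = 0 at h1
    change 2 * y + (C • W).a₁ * x + (C • W).a₃ = 0 at h2
    rw [h1, h2]; simp
  · rintro ⟨h1, h2⟩
    rw [e3] at h2
    rw [h2, mul_zero, sub_zero, e4] at h1
    exact ⟨h1, h2⟩

/-- the inverse change of coordinates -/
lemma vcX_inv (C : VariableChange R) (x : R) : vcX C⁻¹ (vcX C x) = x := by
  have hu : (C.u : R) * ((C.u⁻¹ : Rˣ) : R) = 1 := u_mul_inv C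
  simp only [vcX, VariableChange.inv_def]
  linear_combination (x * (C.u * ((C.u⁻¹ : Rˣ) : R) + 1)) * hu

lemma vcX_inv' (C : VariableChange R) (x : R) : vcX C (vcX C⁻¹ x) = x := by
  have := vcX_inv C⁻¹ x
  rwa [inv_inv] at this

lemma vcY_inv (C : VariableChange R) (x y : R) : vcY C⁻¹ (vcX C x) (vcY C x y) = y := by
  have hu : (C.u : R) * ((C.u⁻¹ : Rˣ) : R) = 1 := u_mul_inv C
  simp only [vcX, vcY, VariableChange.inv_def]
  generalize ((C.u⁻¹ : Rˣ) : R) = v at hu ⊢
  generalize (C.u : R) = u at hu ⊢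
  have h3 : u ^ 3 * v ^ 3 = 1 := by
    linear_combination (u ^ 2 * v ^ 2 + u * v + 1) * hu
  linear_combination y * h3

lemma vcY_inv' (C : VariableChange R) (x y : R) : vcY C (vcX C⁻¹ x) (vcY C⁻¹ x y) = y := by
  have := vcY_inv C⁻¹ x y
  rwa [inv_inv] at this

/-- The bijection on points attached to a change of Weierstrass coordinates. -/
def pointEquivOfVC (W : WeierstrassCurve R) (C : VariableChange R) :
    (C • W).toAffine.Point ≃ W.toAffine.Point where
  toFun
    | .zero => .zero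
    | .some x y h => .some (vcX C x) (vcY C x y) ((nonsingular_vc_iff W C x y).1 h)
  invFun
    | .zero => .zero
    | .some x y h => .some (vcX C⁻¹ x) (vcY C⁻¹ x y) ((nonsingular_vc_iff W C _ _).2 (by
        rw [vcX_inv', vcY_inv']; exact h))
  left_inv
    | .zero => rfl
    | .some x y h => by simp only [vcX_inv, vcY_inv]
  right_inv
    | .zero => rfl
    | .some x y h => by simp only [vcX_inv', vcY_inv']

/-- Number of points is invariant under change of coordinates. -/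
lemma card_vc (W : WeierstrassCurve R) (C : VariableChange R) : (C • W).card = W.card :=
  Nat.card_congr (pointEquivOfVC W C)

lemma traceOfFrobenius_vc (W : WeierstrassCurve R) (C : VariableChange R) :
    (C • W).traceOfFrobenius = W.traceOfFrobenius := by
  rw [traceOfFrobenius, traceOfFrobenius, card_vc]

end Ring

section Integrality

variable {A K : Type*} [CommRing A] [IsIntegrallyClosed A] [Field K]
  [Algebra A K] [IsFractionRing A K]

open Polynomial in
/-- A change of coordinates over the fraction field between two Weierstrass curves over an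
integrally closed domain whose discriminants are units is itself defined over the domain. -/
theorem exists_variableChange_lift (W W' : WeierstrassCurve A) (hΔ : IsUnit W.Δ)
    (hΔ' : IsUnit W'.Δ) (C : VariableChange K)
    (h : C • W.map (algebraMap A K) = W'.map (algebraMap A K)) :
    ∃ C' : VariableChange A, C'.map (algebraMap A K) = C ∧ C' • W = W' := by
  classical
  have hinj : Function.Injective (algebraMap A K) := IsFractionRing.injective A K
  have hlift : ∀ z : K, IsIntegral A z → ∃ a : A, algebraMap A K a = z := fun z hz =>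
    IsIntegrallyClosed.isIntegral_iff.1 hz
  set φ := algebraMap A K with hφ
  have huv : (C.u : K) * ((C.u⁻¹ : Kˣ) : K) = 1 := u_mul_inv C
  have eΔ : φ W'.Δ = ((C.u⁻¹ : Kˣ) : K) ^ 12 * φ W.Δ := by
    have := congrArg WeierstrassCurve.Δ h
    rw [variableChange_Δ, map_Δ, map_Δ] at this
    exact this.symm
  obtain ⟨d, hd⟩ := hΔ
  obtain ⟨d', hd'⟩ := hΔ'
  -- `u` and `u⁻¹` are integral
  have hdK : φ W.Δ * φ ((d⁻¹ : Aˣ) : A) = 1 := by rw [← map_mul, ← hd]; simp
  have hdK' : φ W'.Δ * φ ((d'⁻¹ : Aˣ) : A) = 1 := by rw [← map_mul, ← hd']; simp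
  have hv12 : ((C.u⁻¹ : Kˣ) : K) ^ 12 = φ (W'.Δ * ((d⁻¹ : Aˣ) : A)) := by
    rw [map_mul, eΔ, mul_assoc, hdK, mul_one]
  have hu12 : (C.u : K) ^ 12 = φ (W.Δ * ((d'⁻¹ : Aˣ) : A)) := by
    have h12 : (C.u : K) ^ 12 * ((C.u⁻¹ : Kˣ) : K) ^ 12 = 1 := by
      rw [← mul_pow, huv, one_pow]
    rw [map_mul]
    linear_combination (-(C.u : K) ^ 12) * hdK' + (C.u : K) ^ 12 * φ ((d'⁻¹ : Aˣ) : A) * eΔ
      + φ W.Δ * φ ((d'⁻¹ : Aˣ) : A) * h12
  have hvint : IsIntegral A ((C.u⁻¹ : Kˣ) : K) := by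
    refine IsIntegral.of_pow (n := 12) (by norm_num) ?_
    rw [hv12]; exact isIntegral_algebraMap
  have huint : IsIntegral A (C.u : K) := by
    refine IsIntegral.of_pow (n := 12) (by norm_num) ?_
    rw [hu12]; exact isIntegral_algebraMap
  obtain ⟨u, hu⟩ := hlift _ huint
  obtain ⟨v, hv⟩ := hlift _ hvint
  have huv' : u * v = 1 := hinj (by rw [map_mul, map_one]; exact hu ▸ hv ▸ huv)
  have hpow : ∀ n : ℕ, (C.u : K) ^ n * ((C.u⁻¹ : Kˣ) : K) ^ n = 1 := fun n => by
    rw [← mul_pow, huv, one_pow]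
  -- `r` is integral
  have e6 : (C.u : K) ^ 6 * φ W'.b₆ = φ W.b₆ + 2 * C.r * φ W.b₄ + C.r ^ 2 * φ W.b₂
      + 4 * C.r ^ 3 := by
    have := congrArg WeierstrassCurve.b₆ h
    rw [variableChange_b₆, map_b₆, map_b₆, map_b₄, map_b₂] at this
    linear_combination (-(C.u : K) ^ 6) * this + (φ W.b₆ + 2 * C.r * φ W.b₄ + C.r ^ 2 * φ W.b₂
      + 4 * C.r ^ 3) * hpow 6
  have e8 : (C.u : K) ^ 8 * φ W'.b₈ = φ W.b₈ + 3 * C.r * φ W.b₆ + 3 * C.r ^ 2 * φ W.b₄
      + C.r ^ 3 * φ W.b₂ + 3 * C.r ^ 4 := by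
    have := congrArg WeierstrassCurve.b₈ h
    rw [variableChange_b₈, map_b₈, map_b₈, map_b₆, map_b₄, map_b₂] at this
    linear_combination (-(C.u : K) ^ 8) * this + (φ W.b₈ + 3 * C.r * φ W.b₆
      + 3 * C.r ^ 2 * φ W.b₄ + C.r ^ 3 * φ W.b₂ + 3 * C.r ^ 4) * hpow 8
  have hrint : IsIntegral A C.r := by
    refine ⟨X ^ 4 + (Polynomial.C (-W.b₄) * X ^ 2 + Polynomial.C (-(2 * W.b₆ + u ^ 6 * W'.b₆)) * X
      + Polynomial.C (-(W.b₈ - u ^ 8 * W'.b₈))), ?_, ?_⟩
    · monicity!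
    · simp only [eval₂_add, eval₂_mul, eval₂_C, eval₂_pow, eval₂_X]
      simp only [map_neg, map_sub, map_add, map_mul, map_pow, map_ofNat]
      rw [← hφ, hu]
      linear_combination (-C.r) * e6 + e8
  obtain ⟨r, hr⟩ := hlift _ hrint
  -- `s` is integral
  have e2 : (C.u : K) ^ 2 * φ W'.a₂ = φ W.a₂ - C.s * φ W.a₁ + 3 * C.r - C.s ^ 2 := by
    have := congrArg WeierstrassCurve.a₂ h
    rw [variableChange_a₂, map_a₂, map_a₂, map_a₁] at this
    linear_combination (-(C.u : K) ^ 2) * this + (φ W.a₂ - C.s * φ W.a₁ + 3 * C.r - C.s ^ 2)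
      * hpow 2
  have hsint : IsIntegral A C.s := by
    refine ⟨X ^ 2 + (Polynomial.C W.a₁ * X + Polynomial.C (-(W.a₂ + 3 * r - u ^ 2 * W'.a₂))),
      ?_, ?_⟩
    · monicity!
    · simp only [eval₂_add, eval₂_mul, eval₂_C, eval₂_pow, eval₂_X]
      simp only [map_neg, map_sub, map_add, map_mul, map_pow, map_ofNat]
      rw [← hφ, hu, hr]
      linear_combination e2
  obtain ⟨s, hs⟩ := hlift _ hsint
  -- `t` is integral
  have ea6 : (C.u : K) ^ 6 * φ W'.a₆ = φ W.a₆ + C.r * φ W.a₄ + C.r ^ 2 * φ W.a₂ + C.r ^ 3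
      - C.t * φ W.a₃ - C.t ^ 2 - C.r * C.t * φ W.a₁ := by
    have := congrArg WeierstrassCurve.a₆ h
    rw [variableChange_a₆, map_a₆, map_a₆, map_a₄, map_a₂, map_a₃, map_a₁] at this
    linear_combination (-(C.u : K) ^ 6) * this + (φ W.a₆ + C.r * φ W.a₄ + C.r ^ 2 * φ W.a₂
      + C.r ^ 3 - C.t * φ W.a₃ - C.t ^ 2 - C.r * C.t * φ W.a₁) * hpow 6
  have htint : IsIntegral A C.t := by
    refine ⟨X ^ 2 + (Polynomial.C (W.a₃ + r * W.a₁) * X
      + Polynomial.C (-(W.a₆ + r * W.a₄ + r ^ 2 * W.a₂ + r ^ 3 - u ^ 6 * W'.a₆))), ?_, ?_⟩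
    · monicity!
    · simp only [eval₂_add, eval₂_mul, eval₂_C, eval₂_pow, eval₂_X]
      simp only [map_neg, map_sub, map_add, map_mul, map_pow]
      rw [← hφ, hu, hr]
      linear_combination ea6
  obtain ⟨t, ht⟩ := hlift _ htint
  let C' : VariableChange A := ⟨⟨u, v, huv', by rw [mul_comm]; exact huv'⟩, r, s, t⟩
  have hC' : C'.map φ = C := by
    ext
    · exact hu
    · exact hr
    · exact hs
    · exact ht
  refine ⟨C', hC', ?_⟩
  have : (C' • W).map φ = W'.map φ := by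
    rw [← map_variableChange, hC', h]
  exact WeierstrassCurve.map_injective hinj this

/-- Two integral models of the same curve over `ℚ` with good reduction at `ℓ` have the same
Frobenius trace at `ℓ`. -/
theorem apOfModel_eq_of_variableChange {W W' : WeierstrassCurve ℤ} (C : VariableChange ℚ)
    (h : C • W.map (Int.castRingHom ℚ) = W'.map (Int.castRingHom ℚ)) {ℓ : ℕ} (hℓ : ℓ.Prime)
    (hW : W.IsGoodPrimeFor ℓ) (hW' : W'.IsGoodPrimeFor ℓ) :
    W.apOfModel ℓ = W'.apOfModel ℓ := by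
  have : Fact ℓ.Prime := ⟨hℓ⟩
  have hunit : ∀ z : ℤ, ¬ (ℓ : ℤ) ∣ z → IsUnit ((z : ℤ) : ℤ_[ℓ]) := fun z hz => by
    rw [PadicInt.isUnit_iff]
    refine le_antisymm (PadicInt.norm_le_one _) ?_
    by_contra hlt
    exact hz ((PadicInt.norm_int_lt_one_iff_dvd z).1 (not_le.1 hlt))
  have h1 : (W.map (Int.castRingHom ℤ_[ℓ])).map (algebraMap ℤ_[ℓ] ℚ_[ℓ]) =
      (W.map (Int.castRingHom ℚ)).map (algebraMap ℚ ℚ_[ℓ]) := by
    rw [WeierstrassCurve.map_map, WeierstrassCurve.map_map]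
    congr 1
  have h2 : (W'.map (Int.castRingHom ℤ_[ℓ])).map (algebraMap ℤ_[ℓ] ℚ_[ℓ]) =
      (W'.map (Int.castRingHom ℚ)).map (algebraMap ℚ ℚ_[ℓ]) := by
    rw [WeierstrassCurve.map_map, WeierstrassCurve.map_map]
    congr 1
  obtain ⟨C', -, hC'⟩ := exists_variableChange_lift (K := ℚ_[ℓ])
    (W.map (Int.castRingHom ℤ_[ℓ])) (W'.map (Int.castRingHom ℤ_[ℓ]))
    (by rw [map_Δ]; exact hunit _ hW) (by rw [map_Δ]; exact hunit _ hW')
    (C.map (algebraMap ℚ ℚ_[ℓ])) (by rw [h1, h2, map_variableChange, h])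
  have h3 : (C'.map (PadicInt.toZMod (p := ℓ))) • W.reductionMod ℓ = W'.reductionMod ℓ := by
    have e1 : W.reductionMod ℓ = (W.map (Int.castRingHom ℤ_[ℓ])).map (PadicInt.toZMod (p := ℓ)) := by
      rw [reductionMod, WeierstrassCurve.map_map]
      congr 1
      exact RingHom.ext_int _ _
    have e2 : W'.reductionMod ℓ =
        (W'.map (Int.castRingHom ℤ_[ℓ])).map (PadicInt.toZMod (p := ℓ)) := by
      rw [reductionMod, WeierstrassCurve.map_map]
      congr 1
      exact RingHom.ext_int _ _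
    rw [e1, e2, map_variableChange, hC']
  rw [apOfModel, apOfModel, ← h3, traceOfFrobenius_vc]

/-- Independence of `a_ℓ` of the integral model, for two integral models of the same rational
Weierstrass curve. -/
theorem apOfModel_eq_of_isIntegralModelOf {E : WeierstrassCurve ℚ} {W W' : WeierstrassCurve ℤ}
    (h : W.IsIntegralModelOf E) (h' : W'.IsIntegralModelOf E) {ℓ : ℕ} (hℓ : ℓ.Prime)
    (hW : W.IsGoodPrimeFor ℓ) (hW' : W'.IsGoodPrimeFor ℓ) :
    W.apOfModel ℓ = W'.apOfModel ℓ := by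
  obtain ⟨C, hC⟩ := h
  obtain ⟨C', hC'⟩ := h'
  refine apOfModel_eq_of_variableChange (C' * C⁻¹) ?_ hℓ hW hW'
  rw [mul_smul, ← hC, inv_smul_smul, hC']

end Integrality

section Group

variable {F : Type*} [Field F]

lemma u_ne_zero (C : VariableChange F) : (C.u : F) ≠ 0 := C.u.ne_zero

lemma vcX_injective {R : Type*} [CommRing R] (C : VariableChange R) :
    Function.Injective (vcX C) := fun x x' h => by
  have := congrArg (vcX C⁻¹) h
  rwa [vcX_inv, vcX_inv] at this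

lemma negY_vc {R : Type*} [CommRing R] (W : WeierstrassCurve R) (C : VariableChange R) (x y : R) :
    W.toAffine.negY (vcX C x) (vcY C x y) = vcY C x ((C • W).toAffine.negY x y) := by
  have h := polyY_vc W C x y
  simp only [Affine.negY, vcY, vcX] at h ⊢
  change _ = (C.u : R) ^ 3 * (-y - (C • W).a₁ * x - (C • W).a₃) + _ + _
  linear_combination -h

lemma vcY_injective {R : Type*} [CommRing R] (C : VariableChange R) (x : R) :
    Function.Injective (vcY C x) := fun y y' h => by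
  have := congrArg (vcY C⁻¹ (vcX C x)) h
  rwa [vcY_inv, vcY_inv] at this

lemma a₁_vc (W : WeierstrassCurve F) (C : VariableChange F) :
    W.a₁ = C.u * (C • W).a₁ - 2 * C.s := by
  have hu := u_mul_inv C
  rw [variableChange_a₁]
  linear_combination (-(W.a₁ + 2 * C.s)) * hu

lemma a₂_vc (W : WeierstrassCurve F) (C : VariableChange F) :
    W.a₂ = (C.u : F) ^ 2 * (C • W).a₂ + C.s * W.a₁ - 3 * C.r + C.s ^ 2 := by
  have hu := u_mul_inv C
  rw [variableChange_a₂]
  linear_combination (-(W.a₂ - C.s * W.a₁ + 3 * C.r - C.s ^ 2) *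
    (C.u * ((C.u⁻¹ : Fˣ) : F) + 1)) * hu

variable [DecidableEq F]

lemma slope_vc (W : WeierstrassCurve F) (C : VariableChange F) {x₁ x₂ y₁ y₂ : F}
    (h₁ : (C • W).toAffine.Equation x₁ y₁) (h₂ : (C • W).toAffine.Equation x₂ y₂)
    (hxy : ¬(x₁ = x₂ ∧ y₁ = (C • W).toAffine.negY x₂ y₂)) :
    W.toAffine.slope (vcX C x₁) (vcX C x₂) (vcY C x₁ y₁) (vcY C x₂ y₂) =
      C.u * (C • W).toAffine.slope x₁ x₂ y₁ y₂ + C.s := by
  have hu : (C.u : F) ≠ 0 := u_ne_zero C
  by_cases hx : x₁ = x₂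
  · subst hx
    have hy : y₁ ≠ (C • W).toAffine.negY x₁ y₂ := fun h => hxy ⟨rfl, h⟩
    have hy' : vcY C x₁ y₁ ≠ W.toAffine.negY (vcX C x₁) (vcY C x₁ y₂) := by
      rw [negY_vc]
      exact fun h => hy (vcY_injective C x₁ h)
    have hyy : y₁ = y₂ := Y_eq_of_Y_ne h₁ h₂ rfl hy
    subst hyy
    rw [slope_of_Y_ne rfl hy, slope_of_Y_ne rfl hy']
    have hD : y₁ - (C • W).toAffine.negY x₁ y₁ ≠ 0 := sub_ne_zero.2 hy
    have hD' : vcY C x₁ y₁ - W.toAffine.negY (vcX C x₁) (vcY C x₁ y₁) ≠ 0 := sub_ne_zero.2 hy'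
    rw [div_eq_iff hD', div_eq_mul_inv]
    have eX := polyX_vc W C x₁ y₁
    have eY := polyY_vc W C x₁ y₁
    have eD' : vcY C x₁ y₁ - W.toAffine.negY (vcX C x₁) (vcY C x₁ y₁) =
        (C.u : F) ^ 3 * (y₁ - (C • W).toAffine.negY x₁ y₁) := by
      simp only [Affine.negY]
      linear_combination eY
    rw [eD']
    have hinv : (y₁ - (C • W).toAffine.negY x₁ y₁) * (y₁ - (C • W).toAffine.negY x₁ y₁)⁻¹ = 1 :=
      mul_inv_cancel₀ hD
    have eneg : (y₁ - (C • W).toAffine.negY x₁ y₁) =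
        2 * y₁ + (C • W).a₁ * x₁ + (C • W).a₃ := by
      simp only [Affine.negY]; ring
    change 3 * vcX C x₁ ^ 2 + 2 * W.a₂ * vcX C x₁ + W.a₄ - W.a₁ * vcY C x₁ y₁ =
      (C.u * ((3 * x₁ ^ 2 + 2 * (C • W).a₂ * x₁ + (C • W).a₄ - (C • W).a₁ * y₁) *
        (y₁ - (C • W).toAffine.negY x₁ y₁)⁻¹) + C.s) *
        ((C.u : F) ^ 3 * (y₁ - (C • W).toAffine.negY x₁ y₁))
    linear_combination -eX - (C.u : F) ^ 4 *
      (3 * x₁ ^ 2 + 2 * (C • W).a₂ * x₁ + (C • W).a₄ - (C • W).a₁ * y₁) * hinv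
      - (C.u : F) ^ 3 * C.s * eneg
  · have hx' : vcX C x₁ ≠ vcX C x₂ := fun h => hx (vcX_injective C h)
    rw [slope_of_X_ne hx, slope_of_X_ne hx']
    have h1 : x₁ - x₂ ≠ 0 := sub_ne_zero.2 hx
    have e : vcX C x₁ - vcX C x₂ = (C.u : F) ^ 2 * (x₁ - x₂) := by
      simp only [vcX]; ring
    rw [e, div_eq_iff (mul_ne_zero (pow_ne_zero 2 hu) h1), div_eq_mul_inv]
    have hinv : (x₁ - x₂) * (x₁ - x₂)⁻¹ = 1 := mul_inv_cancel₀ h1
    simp only [vcY]
    linear_combination (-(C.u : F) ^ 3 * (y₁ - y₂)) * hinv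

omit [DecidableEq F] in
lemma addX_vc (W : WeierstrassCurve F) (C : VariableChange F) (x₁ x₂ ℓ : F) :
    W.toAffine.addX (vcX C x₁) (vcX C x₂) (C.u * ℓ + C.s) =
      vcX C ((C • W).toAffine.addX x₁ x₂ ℓ) := by
  have h1 := a₁_vc W C
  have h2 := a₂_vc W C
  simp only [Affine.addX, vcX]
  change (C.u * ℓ + C.s) ^ 2 + W.a₁ * (C.u * ℓ + C.s) - W.a₂ - _ - _ =
    (C.u : F) ^ 2 * (ℓ ^ 2 + (C • W).a₁ * ℓ - (C • W).a₂ - x₁ - x₂) + C.r
  linear_combination (C.u * ℓ) * h1 - h2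

omit [DecidableEq F] in
lemma negAddY_vc (W : WeierstrassCurve F) (C : VariableChange F) (x₁ x₂ y₁ ℓ : F) :
    W.toAffine.negAddY (vcX C x₁) (vcX C x₂) (vcY C x₁ y₁) (C.u * ℓ + C.s) =
      vcY C ((C • W).toAffine.addX x₁ x₂ ℓ) ((C • W).toAffine.negAddY x₁ x₂ y₁ ℓ) := by
  simp only [Affine.negAddY]
  rw [addX_vc]
  simp only [vcX, vcY]
  ring

omit [DecidableEq F] in
lemma addY_vc (W : WeierstrassCurve F) (C : VariableChange F) (x₁ x₂ y₁ ℓ : F) :
    W.toAffine.addY (vcX C x₁) (vcX C x₂) (vcY C x₁ y₁) (C.u * ℓ + C.s) =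
      vcY C ((C • W).toAffine.addX x₁ x₂ ℓ) ((C • W).toAffine.addY x₁ x₂ y₁ ℓ) := by
  simp only [Affine.addY]
  rw [addX_vc, negAddY_vc, negY_vc]

/-- The isomorphism of groups of points attached to a change of Weierstrass coordinates. -/
noncomputable def pointAddEquivOfVC (W : WeierstrassCurve F) (C : VariableChange F) :
    (C • W).toAffine.Point ≃+ W.toAffine.Point where
  __ := pointEquivOfVC W C
  map_add' P Q := by
    rcases P with _ | ⟨x₁, y₁, h₁⟩
    · change pointEquivOfVC W C (0 + Q) = 0 + pointEquivOfVC W C Q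
      rw [zero_add, zero_add]
    rcases Q with _ | ⟨x₂, y₂, h₂⟩
    · change pointEquivOfVC W C (_ + 0) = pointEquivOfVC W C _ + 0
      rw [add_zero, add_zero]
    change pointEquivOfVC W C (Point.some x₁ y₁ h₁ + Point.some x₂ y₂ h₂) =
      Point.some (vcX C x₁) (vcY C x₁ y₁) ((nonsingular_vc_iff W C x₁ y₁).1 h₁) +
      Point.some (vcX C x₂) (vcY C x₂ y₂) ((nonsingular_vc_iff W C x₂ y₂).1 h₂)
    by_cases hxy : x₁ = x₂ ∧ y₁ = (C • W).toAffine.negY x₂ y₂
    · have hxy' : vcX C x₁ = vcX C x₂ ∧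
          vcY C x₁ y₁ = W.toAffine.negY (vcX C x₂) (vcY C x₂ y₂) := by
        refine ⟨by rw [hxy.1], ?_⟩
        rw [negY_vc, hxy.1, hxy.2]
      rw [Point.add_of_Y_eq hxy.1 hxy.2, Point.add_of_Y_eq hxy'.1 hxy'.2]
      rfl
    · have hxy' : ¬ (vcX C x₁ = vcX C x₂ ∧
          vcY C x₁ y₁ = W.toAffine.negY (vcX C x₂) (vcY C x₂ y₂)) := by
        rintro ⟨hx, hy⟩
        have hx' := vcX_injective C hx
        subst hx'
        rw [negY_vc] at hy
        exact hxy ⟨rfl, vcY_injective C _ hy⟩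
      rw [Point.add_some hxy, Point.add_some hxy']
      have hs := slope_vc W C h₁.1 h₂.1 hxy
      change Point.some (vcX C _) (vcY C _ _) _ = _
      congr 1
      · rw [hs, addX_vc]
      · rw [hs, addY_vc]

@[simp]
lemma pointAddEquivOfVC_zero (W : WeierstrassCurve F) (C : VariableChange F) :
    pointAddEquivOfVC W C 0 = 0 := rfl

lemma pointAddEquivOfVC_some (W : WeierstrassCurve F) (C : VariableChange F) {x y : F}
    (h : (C • W).toAffine.Nonsingular x y) :
    pointAddEquivOfVC W C (Point.some x y h) =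
      Point.some (vcX C x) (vcY C x y) ((nonsingular_vc_iff W C x y).1 h) := rfl

/-- The isomorphism of groups of points attached to `C • W = W'`. -/
noncomputable def pointAddEquivOfEq {W W' : WeierstrassCurve F} (C : VariableChange F)
    (h : C • W = W') : W'.toAffine.Point ≃+ W.toAffine.Point :=
  h ▸ pointAddEquivOfVC W C

lemma nonsingular_of_eq {R : Type*} [CommRing R] {W W' : WeierstrassCurve R}
    (C : VariableChange R) (h : C • W = W') {x y : R} (hxy : W'.toAffine.Nonsingular x y) :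
    W.toAffine.Nonsingular (vcX C x) (vcY C x y) := by
  subst h
  exact (nonsingular_vc_iff W C x y).1 hxy

lemma pointAddEquivOfEq_zero {W W' : WeierstrassCurve F} (C : VariableChange F)
    (h : C • W = W') : pointAddEquivOfEq C h 0 = 0 := map_zero _

lemma pointAddEquivOfEq_some {W W' : WeierstrassCurve F} (C : VariableChange F)
    (h : C • W = W') {x y : F} (hxy : W'.toAffine.Nonsingular x y) :
    pointAddEquivOfEq C h (Point.some x y hxy) =
      Point.some (vcX C x) (vcY C x y) (nonsingular_of_eq C h hxy) := by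
  subst h
  rfl

end Group

section Galois

open WeierstrassCurve.Affine.Point

variable {S K : Type*} [CommRing S] [Field K] [DecidableEq K] [Algebra S K]

omit [DecidableEq K] in
lemma baseChange_vc {E E' : WeierstrassCurve S} (C : VariableChange S)
    (h : C • E = E') : (C.map (algebraMap S K)) • (E⁄K) = E'⁄K := by
  subst h
  exact map_variableChange E C (algebraMap S K)

/-- The isomorphism `E'(K) ≃ E(K)` for `C • E = E'` over the base ring `S`. -/
noncomputable def pointBaseChangeEquiv {E E' : WeierstrassCurve S} (C : VariableChange S)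
    (h : C • E = E') : (E'⁄K).Point ≃+ (E⁄K).Point :=
  pointAddEquivOfEq (W := E⁄K) (W' := E'⁄K) (C.map (algebraMap S K)) (baseChange_vc C h)

lemma pointBaseChangeEquiv_some {E E' : WeierstrassCurve S} (C : VariableChange S)
    (h : C • E = E') {x y : K} (hxy : (E'⁄K).Nonsingular x y) :
    pointBaseChangeEquiv C h (Point.some x y hxy) =
      Point.some (W' := E⁄K) (vcX (C.map (algebraMap S K)) x) (vcY (C.map (algebraMap S K)) x y)
        (nonsingular_of_eq _ (baseChange_vc C h) hxy) :=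
  pointAddEquivOfEq_some _ _ _

/-- `pointBaseChangeEquiv` is Galois equivariant. -/
lemma pointBaseChangeEquiv_smul {E E' : WeierstrassCurve S} (C : VariableChange S)
    (h : C • E = E') (σ : K ≃ₐ[S] K) (P : (E'⁄K).Point) :
    pointBaseChangeEquiv C h (σ • P) = σ • pointBaseChangeEquiv C h P := by
  rcases P with _ | ⟨x, y, hxy⟩
  · change pointBaseChangeEquiv C h (σ • 0) = σ • pointBaseChangeEquiv C h 0
    rw [smul_zero, _root_.map_zero, smul_zero]
  · rw [pointBaseChangeEquiv_some, algEquiv_smul_def, algEquiv_smul_def, Point.map_some,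
      Point.map_some, pointBaseChangeEquiv_some]
    congr 1
    · simp [vcX]
    · simp [vcY]

/-- A group isomorphism restricts to an isomorphism of `n`-torsion subgroups. -/
def torsionByEquivOf {A B : Type*} [AddCommGroup A] [AddCommGroup B] (e : A ≃+ B) (n : ℤ) :
    Submodule.torsionBy ℤ A n ≃+ Submodule.torsionBy ℤ B n where
  toFun x := ⟨e x, by
    have hx := (Submodule.mem_torsionBy_iff n (x : A)).1 x.2
    rw [Submodule.mem_torsionBy_iff, ← map_zsmul, hx, _root_.map_zero]⟩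
  invFun y := ⟨e.symm y, by
    have hy := (Submodule.mem_torsionBy_iff n (y : B)).1 y.2
    rw [Submodule.mem_torsionBy_iff, ← map_zsmul, hy, _root_.map_zero]⟩
  left_inv x := Subtype.ext (e.symm_apply_apply _)
  right_inv y := Subtype.ext (e.apply_symm_apply _)
  map_add' x y := Subtype.ext (map_add e _ _)

/-- The isomorphism on `n`-torsion points attached to `C • E = E'`. -/
noncomputable def torsionEquiv {E E' : WeierstrassCurve S} (C : VariableChange S)
    (h : C • E = E') (n : ℕ) :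
    Submodule.torsionBy ℤ (E'⁄K).Point n ≃+ Submodule.torsionBy ℤ (E⁄K).Point n :=
  torsionByEquivOf (pointBaseChangeEquiv C h) n

lemma torsionEquiv_smul {E E' : WeierstrassCurve S} (C : VariableChange S)
    (h : C • E = E') (n : ℕ) (σ : K ≃ₐ[S] K) (P : Submodule.torsionBy ℤ (E'⁄K).Point n) :
    torsionEquiv C h n (σ • P) = σ • torsionEquiv C h n P :=
  Subtype.ext (pointBaseChangeEquiv_smul C h σ P)

/-- The `ZMod n`-linear isomorphism on `n`-torsion points attached to `C • E = E'`. -/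
noncomputable def torsionLinearEquiv {E E' : WeierstrassCurve S} (C : VariableChange S)
    (h : C • E = E') (n : ℕ) :
    Submodule.torsionBy ℤ (E'⁄K).Point n ≃ₗ[ZMod n] Submodule.torsionBy ℤ (E⁄K).Point n where
  __ := torsionEquiv C h n
  map_smul' c x := by
    exact ZMod.map_smul (torsionEquiv C h n).toAddMonoidHom c x

lemma torsionLinearEquiv_smul {E E' : WeierstrassCurve S} (C : VariableChange S)
    (h : C • E = E') (n : ℕ) (σ : K ≃ₐ[S] K) (P : Submodule.torsionBy ℤ (E'⁄K).Point n) :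
    torsionLinearEquiv C h n (σ • P) = σ • torsionLinearEquiv C h n P :=
  torsionEquiv_smul C h n σ P

variable (K) in
lemma galoisRepIsIrreducible_of_vc {E E' : WeierstrassCurve S} (C : VariableChange S)
    (h : C • E = E') (n : ℕ) (hE : GaloisRepIsIrreducible (K := K) S E n) :
    GaloisRepIsIrreducible (K := K) S E' n := by
  obtain ⟨hnt, hirr⟩ := hE
  set e := torsionLinearEquiv (K := K) C h n with he
  refine ⟨e.toEquiv.nontrivial, fun N hN => ?_⟩
  have hst : IsGaloisStable S (N.map e.toLinearMap) := by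
    rintro σ _ ⟨x, hx, rfl⟩
    refine ⟨σ • x, hN σ x hx, ?_⟩
    exact torsionLinearEquiv_smul C h n σ x
  rcases hirr _ hst with h0 | h1
  · left
    rw [eq_bot_iff]
    intro x hx
    have hx' : e x ∈ N.map e.toLinearMap := ⟨x, hx, rfl⟩
    rw [h0, Submodule.mem_bot] at hx'
    exact (Submodule.mem_bot _).2 (e.map_eq_zero_iff.1 hx')
  · right
    rw [eq_top_iff]
    intro x _
    have hx : e x ∈ N.map e.toLinearMap := h1 ▸ Submodule.mem_top
    obtain ⟨y, hy, hxy⟩ := hx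
    rwa [← e.injective hxy]

variable (K) in
lemma galoisRepIsIrreducible_vc_iff {E E' : WeierstrassCurve S} (C : VariableChange S)
    (h : C • E = E') (n : ℕ) :
    GaloisRepIsIrreducible (K := K) S E n ↔ GaloisRepIsIrreducible (K := K) S E' n :=
  ⟨galoisRepIsIrreducible_of_vc K C h n,
    galoisRepIsIrreducible_of_vc K C⁻¹ (by rw [← h, inv_smul_smul]) n⟩

end Galois

section Unramified

open WeierstrassCurve.Affine.Point

lemma card_torsionBy_vc {S K : Type*} [CommRing S] [Field K] [DecidableEq K] [Algebra S K]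
    {E E' : WeierstrassCurve S} (C : VariableChange S) (h : C • E = E') (n : ℕ) :
    Nat.card (Submodule.torsionBy ℤ (E'⁄K).Point n) =
      Nat.card (Submodule.torsionBy ℤ (E⁄K).Point n) :=
  Nat.card_congr (torsionEquiv C h n).toEquiv

variable {S K : Type*} [Field S] [Field K] [DecidableEq K] [Algebra S K]

variable (K) in
lemma galoisRepUnramifiedAt_of_vc {E E' : WeierstrassCurve S} (C : VariableChange S)
    (h : C • E = E') (n q : ℕ) (hE : GaloisRepUnramifiedAt S K E n q) :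
    GaloisRepUnramifiedAt S K E' n q := by
  intro A hA σ hσ x
  apply (torsionEquiv (K := K) C h n).injective
  rw [torsionEquiv_smul]
  exact hE A hA σ hσ _

variable (K) in
lemma galoisRepUnramifiedAt_vc_iff {E E' : WeierstrassCurve S} (C : VariableChange S)
    (h : C • E = E') (n q : ℕ) :
    GaloisRepUnramifiedAt S K E n q ↔ GaloisRepUnramifiedAt S K E' n q :=
  ⟨galoisRepUnramifiedAt_of_vc K C h n q,
    galoisRepUnramifiedAt_of_vc K C⁻¹ (by rw [← h, inv_smul_smul]) n q⟩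

end Unramified

section Rational

open WeierstrassCurve.Affine.Point

/-- Irreducibility of the mod `n` representation does not depend on the model. -/
theorem modRepIsIrreducible_iff_of_isIntegralModelOf {E : WeierstrassCurve ℚ}
    {W : WeierstrassCurve ℤ} (h : W.IsIntegralModelOf E) (n : ℕ) :
    W.ModRepIsIrreducible n ↔ GaloisRepIsIrreducible (K := AlgebraicClosure ℚ) ℚ E n := by
  obtain ⟨C, hC⟩ := h
  exact (galoisRepIsIrreducible_vc_iff _ C hC n).symm

theorem galoisRepUnramifiedAt_iff_of_isIntegralModelOf {E : WeierstrassCurve ℚ}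
    {W : WeierstrassCurve ℤ} (h : W.IsIntegralModelOf E) (n q : ℕ) :
    GaloisRepUnramifiedAt ℚ (AlgebraicClosure ℚ) (W.map (Int.castRingHom ℚ)) n q ↔
      GaloisRepUnramifiedAt ℚ (AlgebraicClosure ℚ) E n q := by
  obtain ⟨C, hC⟩ := h
  exact (galoisRepUnramifiedAt_vc_iff _ C hC n q).symm

/-- Two integral models of the same curve. -/
theorem exists_vc_of_isIntegralModelOf {E : WeierstrassCurve ℚ}
    {W W' : WeierstrassCurve ℤ} (h : W.IsIntegralModelOf E) (h' : W'.IsIntegralModelOf E) :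
    ∃ C : VariableChange ℚ, C • W.map (Int.castRingHom ℚ) = W'.map (Int.castRingHom ℚ) := by
  obtain ⟨C, hC⟩ := h
  obtain ⟨C', hC'⟩ := h'
  exact ⟨C' * C⁻¹, by rw [mul_smul, ← hC, inv_smul_smul, hC']⟩

/-- The rescaled integral model `(n a₁, n² a₂, n³ a₃, n⁴ a₄, n⁶ a₆)`. -/
def rescale (W : WeierstrassCurve ℤ) (n : ℤ) : WeierstrassCurve ℤ where
  a₁ := n * W.a₁
  a₂ := n ^ 2 * W.a₂
  a₃ := n ^ 3 * W.a₃
  a₄ := n ^ 4 * W.a₄
  a₆ := n ^ 6 * W.a₆

lemma rescale_Δ (W : WeierstrassCurve ℤ) (n : ℤ) : (rescale W n).Δ = n ^ 12 * W.Δ := by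
  simp only [rescale, WeierstrassCurve.Δ, WeierstrassCurve.b₂, WeierstrassCurve.b₄,
    WeierstrassCurve.b₆, WeierstrassCurve.b₈]
  ring

lemma rescale_c₄ (W : WeierstrassCurve ℤ) (n : ℤ) : (rescale W n).c₄ = n ^ 4 * W.c₄ := by
  simp only [rescale, WeierstrassCurve.c₄, WeierstrassCurve.b₂, WeierstrassCurve.b₄]
  ring

lemma rescale_isIntegralModelOf {E : WeierstrassCurve ℚ} {W : WeierstrassCurve ℤ}
    (h : W.IsIntegralModelOf E) {n : ℤ} (hn : n ≠ 0) : (rescale W n).IsIntegralModelOf E := by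
  obtain ⟨C, hC⟩ := h
  have hn' : (n : ℚ) ≠ 0 := by exact_mod_cast hn
  refine ⟨(⟨(Units.mk0 (n : ℚ) hn')⁻¹, 0, 0, 0⟩ : VariableChange ℚ) * C, ?_⟩
  rw [mul_smul, hC]
  ext <;> simp [variableChange_def, rescale]

lemma isGoodPrimeFor_rescale {W : WeierstrassCurve ℤ} {n : ℤ} {ℓ : ℕ} (hℓ : ℓ.Prime) :
    (rescale W n).IsGoodPrimeFor ℓ ↔ ¬ (ℓ : ℤ) ∣ n ∧ W.IsGoodPrimeFor ℓ := by
  have hp : Prime (ℓ : ℤ) := Nat.prime_iff_prime_int.1 hℓ
  rw [IsGoodPrimeFor, IsGoodPrimeFor, rescale_Δ, hp.dvd_mul, not_or,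
    hp.dvd_pow_iff_dvd (by norm_num)]

end Rational

end Fermat.Agent.VarChange
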